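import Mathlib
import Fermat.Agent.LT.T2.H175.TauSpec
import Fermat.Agent.LT.T2.H570.LocFin

/-!
# Row LT, tower T2, leaf T2.22d.5 `LocFinTC175` (helper776)

OFF-MAIN.  `locFinTC776 K : T2.H175.LocFinTC175 K`, VERBATIM against
`LT/T2/H175/TauSpec.lean` (helper175, sha256 da27a6e8), unconditional.

`θ(M) = s · adjugate M · s` with `s = [[0,1],[1,0]]` (integral, `s · s = 1`), and
`adjugate M = A M B` with `A, B ∈ GL₂(𝒪_v)` by `leafLocFin570` (helper570, T2.02d.5a); so
`θ(M) = (s A) M (B s)`.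
-/

set_option autoImplicit false

open IsDedekindDomain NumberField

namespace Fermat.Agent.LT.T2.H776

/-- The swap matrix `s = [[0,1],[1,0]]`. -/
def swapM776 (R : Type*) [CommRing R] : Matrix (Fin 2) (Fin 2) R := !![0, 1; 1, 0]

theorem swapM776_mul_self (R : Type*) [CommRing R] : swapM776 R * swapM776 R = 1 := by
  ext i j
  fin_cases i <;> fin_cases j <;> simp [swapM776, Matrix.mul_apply, Fin.sum_univ_two]

/-- `θ(M) = s · adjugate M · s`. -/
theorem thetaM_eq_swap_adjugate776 {R : Type*} [CommRing R] (M : Matrix (Fin 2) (Fin 2) R) :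
    Fermat.Agent.LT.T2.H175.thetaM175 M = swapM776 R * M.adjugate * swapM776 R := by
  ext i j
  fin_cases i <;> fin_cases j <;>
    simp [Fermat.Agent.LT.T2.H175.thetaM175, swapM776, Matrix.mul_apply, Fin.sum_univ_two,
      Matrix.adjugate_fin_two]

/-- Left multiplication by the swap keeps the entries integral. -/
theorem swap_mul_int776 {L : Type*} [Field L] {Γ₀ : Type*}
    [LinearOrderedCommGroupWithZero Γ₀] (ν : Valuation L Γ₀) {A : Matrix (Fin 2) (Fin 2) L}
    (hA : ∀ i j, ν (A i j) ≤ 1) : ∀ i j, ν ((swapM776 L * A) i j) ≤ 1 := by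
  intro i j
  fin_cases i <;> simp [swapM776, Matrix.mul_apply, Fin.sum_univ_two] <;> exact hA _ _

/-- Right multiplication by the swap keeps the entries integral. -/
theorem mul_swap_int776 {L : Type*} [Field L] {Γ₀ : Type*}
    [LinearOrderedCommGroupWithZero Γ₀] (ν : Valuation L Γ₀) {A : Matrix (Fin 2) (Fin 2) L}
    (hA : ∀ i j, ν (A i j) ≤ 1) : ∀ i j, ν ((A * swapM776 L) i j) ≤ 1 := by
  intro i j
  fin_cases j <;> simp [swapM776, Matrix.mul_apply, Fin.sum_univ_two] <;> exact hA _ _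

/-- **T2.22d.5**: for `M ∈ GL₂(K_v)` there are `A, B ∈ GL₂(𝒪_v)` with `θ(M) = A M B`. -/
theorem locFinTC776 (K : Type) [Field K] [NumberField K] :
    Fermat.Agent.LT.T2.H175.LocFinTC175 K := by
  intro v M hM
  obtain ⟨A, A', B, B', hAA', hBB', hA, hA', hB, hB', hadj⟩ :=
    Fermat.Agent.LT.T2.H570.leafLocFin570 K v M hM
  have hs := swapM776_mul_self (v.adicCompletion K)
  refine ⟨swapM776 _ * A, A' * swapM776 _, B * swapM776 _, swapM776 _ * B', ?_, ?_,
    swap_mul_int776 _ hA, mul_swap_int776 _ hA', mul_swap_int776 _ hB, swap_mul_int776 _ hB', ?_⟩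
  · calc swapM776 _ * A * (A' * swapM776 _)
        = swapM776 _ * (A * A') * swapM776 _ := by simp only [Matrix.mul_assoc]
      _ = 1 := by rw [hAA', Matrix.mul_one, hs]
  · calc B * swapM776 _ * (swapM776 _ * B')
        = B * (swapM776 _ * swapM776 _) * B' := by simp only [Matrix.mul_assoc]
      _ = 1 := by rw [hs, Matrix.mul_one, hBB']
  · rw [thetaM_eq_swap_adjugate776, hadj]
    simp only [Matrix.mul_assoc]

end Fermat.Agent.LT.T2.H776
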