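import Mathlib
import Fermat.Agent.LT.H556.A0
import Fermat.Agent.LT.T1.Spec
import Fermat.Agent.LT.T2.Spec
import Fermat.Agent.LT.T2.SpecTau
import Fermat.Agent.LT.T2.H291.OpsSpecT
import Fermat.Agent.LT.T2.H472.LocCont

/-!
# Row LT, tower T2, sub-leaf T2.27.19 `SubCommSphereCircleT291` (helper776), OFF-MAIN

A sphere mean (complex place `w`) and a `τ`-twisted circle mean (real place `w'`) commute on the
cusp functions of the class `(𝔫, τ, r)`.  `T`-form of T2.07.19 (helper879,
`LT/T2/H879/CommSphereCircle.lean`): the SAME proof, with the continuous weight `τ(k_θ)⁻¹`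
inside the integrand.  `w ≠ w'`, so the parametrising elements commute (`comm_of_local776c`), and
the three interval integrals may be interchanged (Fubini for continuous integrands on a box,
`swap3_776c`).  Sections 1 and 3 are the lemmas of helper879, renamed (his file is typed on older
Spec bytes).  Continuity of the parametrisations: `locCont472` (helper472, imports A0 only).

VERBATIM against `LT/T2/H291/OpsSpecT.lean` (helper291@22c6ecc98, sha256 c8359c85); UNCONDITIONAL.
-/

set_option autoImplicit false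

open IsDedekindDomain NumberField MeasureTheory
open Fermat.Agent.LT.H556.A0
open Fermat.Agent.LT.T2
open Fermat.Agent.LT.T2.H291

noncomputable section

namespace Fermat.Agent.LT.T2.H776

variable {K : Type} [Field K] [NumberField K]

/-! ## 1. Elements supported at different infinite places commute -/

/-- Two adeles with the same components are equal. -/
theorem adl_ext776c {x y : Adl K} (hinf : ∀ u : InfinitePlace K, x.1 u = y.1 u)
    (hfin : ∀ v : HeightOneSpectrum (𝓞 K), x.2 v = y.2 v) : x = y := by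
  refine Prod.ext ?_ ?_
  · funext u
    exact hinf u
  · exact RestrictedProduct.ext _ _ hfin

/-- The entries of a product at an infinite place. -/
theorem mul_inf776c (a b : G K) (u : InfinitePlace K) (i j : Fin 2) :
    (((a * b : G K) : Matrix (Fin 2) (Fin 2) (Adl K)) i j).1 u
      = ((a : Matrix (Fin 2) (Fin 2) (Adl K)) i 0).1 u
          * ((b : Matrix (Fin 2) (Fin 2) (Adl K)) 0 j).1 u
        + ((a : Matrix (Fin 2) (Fin 2) (Adl K)) i 1).1 u
          * ((b : Matrix (Fin 2) (Fin 2) (Adl K)) 1 j).1 u := by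
  rw [Units.val_mul, Matrix.mul_apply, Fin.sum_univ_two]
  rfl

/-- The entries of a product at a finite place. -/
theorem mul_fin776c (a b : G K) (v : HeightOneSpectrum (𝓞 K)) (i j : Fin 2) :
    (((a * b : G K) : Matrix (Fin 2) (Fin 2) (Adl K)) i j).2 v
      = ((a : Matrix (Fin 2) (Fin 2) (Adl K)) i 0).2 v
          * ((b : Matrix (Fin 2) (Fin 2) (Adl K)) 0 j).2 v
        + ((a : Matrix (Fin 2) (Fin 2) (Adl K)) i 1).2 v
          * ((b : Matrix (Fin 2) (Fin 2) (Adl K)) 1 j).2 v := by
  rw [Units.val_mul, Matrix.mul_apply, Fin.sum_univ_two]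
  rfl

/-- If `a` is trivial at the infinite place `u`, then `a * b` and `b * a` have the components of
`b` at `u`. -/
theorem mul_inf_of_triv_left776c {a : G K} {u : InfinitePlace K} (ha : TrivAtInf u a) (b : G K)
    (i j : Fin 2) :
    (((a * b : G K) : Matrix (Fin 2) (Fin 2) (Adl K)) i j).1 u
      = ((b : Matrix (Fin 2) (Fin 2) (Adl K)) i j).1 u := by
  rw [mul_inf776c, ha i 0, ha i 1]
  fin_cases i <;> simp [Matrix.one_apply]

theorem mul_inf_of_triv_right776c {a : G K} {u : InfinitePlace K} (ha : TrivAtInf u a) (b : G K)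
    (i j : Fin 2) :
    (((b * a : G K) : Matrix (Fin 2) (Fin 2) (Adl K)) i j).1 u
      = ((b : Matrix (Fin 2) (Fin 2) (Adl K)) i j).1 u := by
  rw [mul_inf776c, ha 0 j, ha 1 j]
  fin_cases j <;> simp [Matrix.one_apply]

theorem trivAtFin_apply776c {a : G K} {v : HeightOneSpectrum (𝓞 K)} (ha : TrivAtFin v a)
    (i j : Fin 2) :
    ((a : Matrix (Fin 2) (Fin 2) (Adl K)) i j).2 v
      = (1 : Matrix (Fin 2) (Fin 2) (v.adicCompletion K)) i j := by
  have h := congrFun (congrFun ha i) j
  exact h

theorem mul_fin_of_triv_left776c {a : G K} {v : HeightOneSpectrum (𝓞 K)} (ha : TrivAtFin v a)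
    (b : G K) (i j : Fin 2) :
    (((a * b : G K) : Matrix (Fin 2) (Fin 2) (Adl K)) i j).2 v
      = ((b : Matrix (Fin 2) (Fin 2) (Adl K)) i j).2 v := by
  rw [mul_fin776c, trivAtFin_apply776c ha i 0, trivAtFin_apply776c ha i 1]
  fin_cases i <;> simp [Matrix.one_apply]

theorem mul_fin_of_triv_right776c {a : G K} {v : HeightOneSpectrum (𝓞 K)} (ha : TrivAtFin v a)
    (b : G K) (i j : Fin 2) :
    (((b * a : G K) : Matrix (Fin 2) (Fin 2) (Adl K)) i j).2 v
      = ((b : Matrix (Fin 2) (Fin 2) (Adl K)) i j).2 v := by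
  rw [mul_fin776c, trivAtFin_apply776c ha 0 j, trivAtFin_apply776c ha 1 j]
  fin_cases j <;> simp [Matrix.one_apply]

/-- **Elements supported at two different infinite places commute.** -/
theorem comm_of_local776c {w w' : InfinitePlace K} (hne : w ≠ w') {a b : G K}
    (ha : IsLocalAtInf w a) (hb : IsLocalAtInf w' b) : a * b = b * a := by
  apply Units.ext
  funext i j
  apply adl_ext776c
  · intro u
    by_cases hu : u = w
    · have hb' : TrivAtInf u b := hb.1 u (by rw [hu]; exact hne)
      rw [mul_inf_of_triv_right776c hb' a i j, mul_inf_of_triv_left776c hb' a i j]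
    · have ha' : TrivAtInf u a := ha.1 u hu
      rw [mul_inf_of_triv_left776c ha' b i j, mul_inf_of_triv_right776c ha' b i j]
  · intro v
    rw [mul_fin_of_triv_left776c (ha.2 v) b i j, mul_fin_of_triv_right776c (ha.2 v) b i j]

/-! ## 2. Continuity of the parametrisations, compactness of the rotations -/

theorem continuous_rotZ_entry776c (i j : Fin 2) : Continuous fun α : ℝ => rotZ α i j := by
  fin_cases i <;> fin_cases j <;> simp [rotZ] <;> fun_prop

theorem continuous_rotY_entry776c (i j : Fin 2) : Continuous fun β : ℝ => rotY β i j := by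
  fin_cases i <;> fin_cases j <;> simp [rotY] <;> fun_prop

/-- The parametrisation of a sphere is continuous. -/
theorem continuous_sphere776c {w : InfinitePlace K} {d : ℝ}
    {Y : ℝ → ℝ → G K} (hY : IsSphereAt w d Y) :
    Continuous fun p : ℝ × ℝ => Y p.1 p.2 := by
  refine Fermat.Agent.LT.T2.H472.locCont472 K w (ℝ × ℝ) (fun p => Y p.1 p.2)
    (fun p => (hY p.1 p.2).1) ?_
  intro i j
  have h : (fun p : ℝ × ℝ => infComp w (Y p.1 p.2) i j)
      = fun p : ℝ × ℝ => (rotZ p.1 * rotY p.2 * torus d) i j := by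
    funext p
    rw [(hY p.1 p.2).2]
  rw [h]
  simp only [Matrix.mul_apply, Fin.sum_univ_two]
  have hZ := fun i j => (continuous_rotZ_entry776c i j).comp
    (continuous_fst : Continuous fun p : ℝ × ℝ => p.1)
  have hYY := fun i j => (continuous_rotY_entry776c i j).comp
    (continuous_snd : Continuous fun p : ℝ × ℝ => p.2)
  simp only [Function.comp_def] at hZ hYY
  fun_prop

/-- The one-parameter family of rotations at a real place is continuous. -/
theorem continuous_rot776c {w : InfinitePlace K} {k : ℝ → G K} (hk : IsRotAt w k) :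
    Continuous k := by
  refine Fermat.Agent.LT.T2.H472.locCont472 K w ℝ k (fun θ => (hk θ).1) ?_
  intro i j
  have h : (fun θ : ℝ => infComp w (k θ) i j) = fun θ : ℝ => rotY θ i j := by
    funext θ
    rw [(hk θ).2]
  rw [h]
  exact continuous_rotY_entry776c i j

theorem rot_aux776c (c s : ℝ) (h : c ^ 2 + s ^ 2 = 1) :
    (!![(c : ℂ), -(s : ℂ); (s : ℂ), (c : ℂ)] : Matrix (Fin 2) (Fin 2) ℂ)
        * (!![(c : ℂ), -(s : ℂ); (s : ℂ), (c : ℂ)] : Matrix (Fin 2) (Fin 2) ℂ).conjTranspose = 1
      ∧ (!![(c : ℂ), -(s : ℂ); (s : ℂ), (c : ℂ)] : Matrix (Fin 2) (Fin 2) ℂ).det = 1 := by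
  have hC : (c : ℂ) ^ 2 + (s : ℂ) ^ 2 = 1 := by exact_mod_cast h
  constructor
  · ext i j
    fin_cases i <;> fin_cases j <;>
      simp [Matrix.mul_apply, Matrix.conjTranspose_apply, Fin.sum_univ_two] <;>
      first | linear_combination hC | ring
  · rw [Matrix.det_fin_two]
    simp
    linear_combination hC

theorem rotY_mul_conjTranspose776c (θ : ℝ) : rotY θ * (rotY θ).conjTranspose = 1 :=
  (rot_aux776c (Real.cos (θ / 2)) (Real.sin (θ / 2)) (Real.cos_sq_add_sin_sq (θ / 2))).1

theorem det_rotY776c (θ : ℝ) : (rotY θ).det = 1 :=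
  (rot_aux776c (Real.cos (θ / 2)) (Real.sin (θ / 2)) (Real.cos_sq_add_sin_sq (θ / 2))).2

/-- The rotations at a real place lie in the compact group. -/
theorem isArchCompact_rot776c {w : InfinitePlace K} {k : ℝ → G K} (hk : IsRotAt w k) (θ : ℝ) :
    IsArchCompact w (k θ) := by
  refine ⟨(hk θ).1, ?_, fun _ => ?_⟩
  · rw [(hk θ).2]
    exact rotY_mul_conjTranspose776c θ
  · rw [(hk θ).2]
    exact det_rotY776c θ

/-! ## 3. Fubini on a box -/

/-- Interchange of three interval integrals for a continuous integrand with a weight in the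
middle variable. -/
theorem swap3_776c {F : ℝ → ℝ → ℝ → ℂ}
    (hF : Continuous fun p : ℝ × ℝ × ℝ => F p.1 p.2.1 p.2.2) {s : ℝ → ℂ} (hs : Continuous s)
    (a b c d e f : ℝ) :
    (∫ α in a..b, ∫ β in c..d, (∫ θ in e..f, F α β θ) * s β)
      = ∫ θ in e..f, ∫ α in a..b, ∫ β in c..d, F α β θ * s β := by
  -- the integrand `G α β θ = F α β θ * s β`
  have hG : Continuous fun p : ℝ × ℝ × ℝ => F p.1 p.2.1 p.2.2 * s p.2.1 :=
    hF.mul (hs.comp (continuous_fst.comp continuous_snd))
  -- step 1: the weight goes inside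
  have h1 : ∀ α β : ℝ, (∫ θ in e..f, F α β θ) * s β = ∫ θ in e..f, F α β θ * s β := by
    intro α β
    exact (intervalIntegral.integral_mul_const (s β) (fun θ => F α β θ)).symm
  simp only [h1]
  -- step 2: interchange of the two inner integrals
  have h2 : ∀ α : ℝ, (∫ β in c..d, ∫ θ in e..f, F α β θ * s β)
      = ∫ θ in e..f, ∫ β in c..d, F α β θ * s β := by
    intro α
    apply intervalIntegral_intervalIntegral_swap
    have hc : Continuous (Function.uncurry fun β θ : ℝ => F α β θ * s β) := by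
      have : (Function.uncurry fun β θ : ℝ => F α β θ * s β)
          = (fun p : ℝ × ℝ × ℝ => F p.1 p.2.1 p.2.2 * s p.2.1) ∘ fun q : ℝ × ℝ => (α, q.1, q.2) := by
        funext q
        rfl
      rw [this]
      exact hG.comp (by fun_prop)
    exact (hc.continuousOn.integrableOn_compact
      (isCompact_uIcc.prod isCompact_uIcc)).mono_set
      (Set.prod_mono Set.uIoc_subset_uIcc Set.uIoc_subset_uIcc)
  simp only [h2]
  -- step 3: interchange of the two outer integrals
  apply intervalIntegral_intervalIntegral_swap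
  have hc : Continuous (Function.uncurry fun α θ : ℝ => ∫ β in c..d, F α β θ * s β) := by
    have hpar := intervalIntegral.continuous_parametric_intervalIntegral_of_continuous'
      (μ := volume) (f := fun (q : ℝ × ℝ) (β : ℝ) => F q.1 β q.2 * s β) (by
        have : (Function.uncurry fun (q : ℝ × ℝ) (β : ℝ) => F q.1 β q.2 * s β)
            = (fun p : ℝ × ℝ × ℝ => F p.1 p.2.1 p.2.2 * s p.2.1)
                ∘ fun r : (ℝ × ℝ) × ℝ => (r.1.1, r.2, r.1.2) := by
          funext r
          rfl
        rw [this]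
        exact hG.comp (by fun_prop)) c d
    exact hpar
  exact (hc.continuousOn.integrableOn_compact
    (isCompact_uIcc.prod isCompact_uIcc)).mono_set
    (Set.prod_mono Set.uIoc_subset_uIcc Set.uIoc_subset_uIcc)

/-! ## 4. The sub-leaf -/

/-- **T2.27.19**: a sphere mean and a `τ`-twisted circle mean commute on the cusp functions of
the class. -/
theorem subCommSphereCircleT776 (K : Type) [Field K] [NumberField K] :
    SubCommSphereCircleT291 K := by
  intro 𝔫 τ hctx R w hw d _ Y hY w' hw' t _ k a hk ha φ hφ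
  have hne : w ≠ w' := by
    rintro rfl
    exact (InfinitePlace.not_isReal_iff_isComplex.mpr hw) hw'
  have hcY : Continuous fun p : ℝ × ℝ => Y p.1 p.2 := continuous_sphere776c hY
  have hck : Continuous k := continuous_rot776c hk
  have hkc : ∀ θ : ℝ, IsArchCompact w' (k θ) := isArchCompact_rot776c hk
  have hτc : Continuous fun θ : ℝ => τ (k θ) :=
    (hctx.kt.cont w').comp_continuous hck hkc
  have hτ0 : ∀ θ : ℝ, τ (k θ) ≠ 0 := by
    intro θ h0
    have h1 := hctx.kt.norm_one w' (k θ) (hkc θ)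
    rw [h0, norm_zero] at h1
    exact zero_ne_one h1
  have hτi : Continuous fun θ : ℝ => (τ (k θ))⁻¹ := hτc.inv₀ hτ0
  funext g
  show (∫ α in (0 : ℝ)..(2 * Real.pi), ∫ β in (0 : ℝ)..Real.pi,
        circleMeanT τ k a φ (g * Y α β) * ((Real.sin β : ℝ) : ℂ))
      = ∫ θ in (0 : ℝ)..(2 * Real.pi), (τ (k θ))⁻¹ * sphereMean Y φ (g * k θ * a)
  simp only [circleMeanT, sphereMean]
  have hcomm : ∀ α β θ : ℝ, g * k θ * a * Y α β = g * Y α β * k θ * a := by
    intro α β θ
    have h1 : a * Y α β = Y α β * a := (comm_of_local776c hne (hY α β).1 ha.1).symm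
    have h2 : k θ * Y α β = Y α β * k θ := (comm_of_local776c hne (hY α β).1 (hk θ).1).symm
    calc g * k θ * a * Y α β = g * k θ * (a * Y α β) := by rw [mul_assoc]
      _ = g * k θ * (Y α β * a) := by rw [h1]
      _ = g * (k θ * Y α β) * a := by simp only [mul_assoc]
      _ = g * (Y α β * k θ) * a := by rw [h2]
      _ = g * Y α β * k θ * a := by simp only [mul_assoc]
  simp only [hcomm]
  have hF : Continuous fun p : ℝ × ℝ × ℝ =>
      (τ (k p.2.2))⁻¹ * φ (g * Y p.1 p.2.1 * k p.2.2 * a) := by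
    refine (hτi.comp (continuous_snd.comp continuous_snd)).mul (hφ.aut.cont.comp ?_)
    have h1 : Continuous fun p : ℝ × ℝ × ℝ => Y p.1 p.2.1 :=
      hcY.comp (continuous_fst.prodMk (continuous_fst.comp continuous_snd))
    have h2 : Continuous fun p : ℝ × ℝ × ℝ => k p.2.2 :=
      hck.comp (continuous_snd.comp continuous_snd)
    exact ((continuous_const.mul h1).mul h2).mul continuous_const
  have hs : Continuous fun β : ℝ => ((Real.sin β : ℝ) : ℂ) := by fun_prop
  rw [swap3_776c (F := fun α β θ => (τ (k θ))⁻¹ * φ (g * Y α β * k θ * a)) hF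
    (s := fun β => ((Real.sin β : ℝ) : ℂ)) hs]
  refine intervalIntegral.integral_congr fun θ _ => ?_
  show (∫ α in (0 : ℝ)..(2 * Real.pi), ∫ β in (0 : ℝ)..Real.pi,
        (τ (k θ))⁻¹ * φ (g * Y α β * k θ * a) * ((Real.sin β : ℝ) : ℂ))
      = (τ (k θ))⁻¹ * ∫ α in (0 : ℝ)..(2 * Real.pi), ∫ β in (0 : ℝ)..Real.pi,
        φ (g * Y α β * k θ * a) * ((Real.sin β : ℝ) : ℂ)
  rw [← intervalIntegral.integral_const_mul]
  refine intervalIntegral.integral_congr fun α _ => ?_
  show (∫ β in (0 : ℝ)..Real.pi,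
        (τ (k θ))⁻¹ * φ (g * Y α β * k θ * a) * ((Real.sin β : ℝ) : ℂ))
      = (τ (k θ))⁻¹ * ∫ β in (0 : ℝ)..Real.pi,
        φ (g * Y α β * k θ * a) * ((Real.sin β : ℝ) : ℂ)
  rw [← intervalIntegral.integral_const_mul]
  refine intervalIntegral.integral_congr fun β _ => ?_
  show (τ (k θ))⁻¹ * φ (g * Y α β * k θ * a) * ((Real.sin β : ℝ) : ℂ)
      = (τ (k θ))⁻¹ * (φ (g * Y α β * k θ * a) * ((Real.sin β : ℝ) : ℂ))
  rw [mul_assoc]

end Fermat.Agent.LT.T2.H776
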